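import Fermat.Agent.MertensThird.Constant

/-!
# From Mertens' second sum to the pole at `1`

For `w ≥ 0` with `∑_{m ≤ n} w m / m - log log n → M` the series `∑ w m m ^ (-1-h) + log h` tends to
`M - γ`: the sum over `k < log m ≤ k + 1` and Abel's limit theorem.
-/

set_option autoImplicit false

noncomputable section

open Finset Filter Real
open FA.MertensThird (tendsto_loglog_floor_sub)
open scoped Topology

namespace FA.IdealMertens

/-- The `m` with `1 ≤ m ≤ e ^ k`. -/
def expNums (k : ℕ) : Finset ℕ := Icc 1 ⌊Real.exp k⌋₊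

theorem mem_expNums {k m : ℕ} : m ∈ expNums k ↔ 1 ≤ m ∧ log m ≤ k := by
  rw [expNums, mem_Icc, and_congr_right_iff]
  intro hm
  rw [Nat.le_floor_iff (Real.exp_pos _).le, Real.log_le_iff_le_exp (Nat.cast_pos.2 hm)]

theorem expNums_mono {j k : ℕ} (h : j ≤ k) : expNums j ⊆ expNums k := fun _ hm =>
  mem_expNums.2 ⟨(mem_expNums.1 hm).1, (mem_expNums.1 hm).2.trans (Nat.cast_le.2 h)⟩

/-- `∑ w m / m` over `k < log m ≤ k + 1`. -/
def weightBlock (w : ℕ → ℝ) (k : ℕ) : ℝ := ∑ m ∈ expNums (k + 1) \ expNums k, w m / m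

theorem expNums_zero : expNums 0 = {1} := by
  rw [expNums, Nat.cast_zero, Real.exp_zero, Nat.floor_one, Icc_self]

theorem sum_weightBlock {w : ℕ → ℝ} (h1 : w 1 = 0) (K : ℕ) :
    ∑ k ∈ range K, weightBlock w k = ∑ m ∈ expNums K, w m / m := by
  induction K with
  | zero => simp [expNums_zero, h1]
  | succ K ih =>
    rw [sum_range_succ, ih, weightBlock, add_comm]
    exact sum_sdiff (expNums_mono K.le_succ)

theorem weight_sandwich {w : ℕ → ℝ} (hw : ∀ m, 0 ≤ w m) (h1 : w 1 = 0) {h : ℝ} (hh : 0 ≤ h)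
    (K : ℕ) :
    ∑ k ∈ range K, weightBlock w k * Real.exp (-h) ^ (k + 1) ≤
        ∑ m ∈ expNums K, w m * (m : ℝ) ^ (-(1 + h)) ∧
      ∑ m ∈ expNums K, w m * (m : ℝ) ^ (-(1 + h)) ≤
        Real.exp h * ∑ k ∈ range K, weightBlock w k * Real.exp (-h) ^ (k + 1) := by
  induction K with
  | zero => simp [expNums_zero, h1]
  | succ K ih =>
    rw [sum_range_succ, mul_add,
      ← sum_sdiff (expNums_mono K.le_succ) (f := fun m => w m * (m : ℝ) ^ (-(1 + h))),
      add_comm (∑ m ∈ _ \ _, _)]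
    have hmem : ∀ m ∈ expNums (K + 1) \ expNums K,
        w m * (m : ℝ) ^ (-(1 + h)) = w m / m * Real.exp (-(h * log m)) ∧
          (K : ℝ) < log m ∧ log m ≤ K + 1 := fun m hm => by
      rw [Finset.mem_sdiff, mem_expNums, mem_expNums, not_and, not_le] at hm
      refine ⟨?_, hm.2 hm.1.1, by exact_mod_cast hm.1.2⟩
      have hm0 : (0 : ℝ) < m := Nat.cast_pos.2 hm.1.1
      rw [neg_add, Real.rpow_add hm0, Real.rpow_neg_one, Real.rpow_def_of_pos hm0]
      ring_nf
    have hpos : ∀ m, 0 ≤ w m / (m : ℝ) := fun m => div_nonneg (hw m) (Nat.cast_nonneg m)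
    refine ⟨add_le_add ih.1 ?_, add_le_add ih.2 ?_⟩
    · rw [weightBlock, sum_mul]
      refine sum_le_sum fun m hm => ?_
      obtain ⟨e, l1, l2⟩ := hmem m hm
      rw [e, ← Real.exp_nat_mul]
      refine mul_le_mul_of_nonneg_left (Real.exp_le_exp.2 ?_) (hpos m)
      push_cast
      nlinarith
    · rw [weightBlock, sum_mul, mul_sum]
      refine sum_le_sum fun m hm => ?_
      obtain ⟨e, l1, l2⟩ := hmem m hm
      rw [e, ← Real.exp_nat_mul, mul_left_comm, ← Real.exp_add]
      refine mul_le_mul_of_nonneg_left (Real.exp_le_exp.2 ?_) (hpos m)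
      push_cast
      nlinarith

/-- **Abel's limit for the weights.** -/
theorem tendsto_weight_series {w : ℕ → ℝ} (hw : ∀ m, 0 ≤ w m) (h0 : w 0 = 0) (h1 : w 1 = 0)
    (hs : ∀ h : ℝ, 0 < h → Summable fun m : ℕ => w m * (m : ℝ) ^ (-(1 + h))) {M : ℝ}
    (hM : Tendsto (fun n : ℕ => (∑ m ∈ Icc 1 n, w m / m) - log (log n)) atTop (𝓝 M)) :
    Tendsto (fun h : ℝ => (∑' m : ℕ, w m * (m : ℝ) ^ (-(1 + h))) + log h) (𝓝[>] 0)
      (𝓝 (M - eulerMascheroniConstant)) := by
  obtain ⟨a, ha⟩ : ∃ a : ℕ → ℝ, a = fun k : ℕ => weightBlock w k - 1 / ((k : ℝ) + 1) := ⟨_, rfl⟩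
  have hfl : Tendsto (fun K : ℕ => ⌊Real.exp K⌋₊) atTop atTop :=
    tendsto_nat_floor_atTop.comp (Real.tendsto_exp_atTop.comp tendsto_natCast_atTop_atTop)
  have hpart : Tendsto (fun K => ∑ k ∈ range K, a k) atTop (𝓝 (M - eulerMascheroniConstant)) := by
    have h2 := ((hM.comp hfl).add (tendsto_loglog_floor_sub.comp
      (Real.tendsto_exp_atTop.comp tendsto_natCast_atTop_atTop))).sub tendsto_harmonic_sub_log
    rw [add_zero] at h2
    refine h2.congr fun K => ?_
    simp only [Function.comp_apply, Real.log_exp]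
    rw [ha, sum_sub_distrib, sum_weightBlock h1, expNums]
    simp only [harmonic, Rat.cast_sum, Rat.cast_inv, Rat.cast_natCast, one_div]
    push_cast
    ring
  obtain ⟨C, hC⟩ : ∃ C, ∀ k, |a k| ≤ C := by
    have hz : Tendsto (fun K => ‖a K‖) atTop (𝓝 0) := by
      have := ((hpart.comp (tendsto_add_atTop_nat 1)).sub hpart).norm
      simpa [Function.comp_def, sum_range_succ] using this
    obtain ⟨C, hC⟩ := hz.bddAbove_range
    exact ⟨C, fun k => hC ⟨k, rfl⟩⟩
  obtain ⟨A, hA⟩ : ∃ A : ℝ → ℝ, A = fun x => ∑' k, a k * x ^ k := ⟨_, rfl⟩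
  obtain ⟨Q, hQ⟩ : ∃ Q : ℝ → ℝ,
      Q = fun h => Real.exp (-h) * A (Real.exp (-h)) - log (1 - Real.exp (-h)) := ⟨_, rfl⟩
  have hQsum : ∀ h, 0 < h →
      HasSum (fun k => weightBlock w k * Real.exp (-h) ^ (k + 1)) (Q h) := fun h hh => by
    obtain ⟨x, hxd⟩ : ∃ x, x = Real.exp (-h) := ⟨_, rfl⟩
    have hx0 : 0 < x := hxd ▸ Real.exp_pos _
    have hx1 : x < 1 := hxd ▸ Real.exp_lt_one_iff.2 (by linarith)
    have hsa : Summable fun k => a k * x ^ k :=
      Summable.of_norm_bounded ((summable_geometric_of_lt_one hx0.le hx1).mul_left C) fun k => by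
        rw [norm_mul, Real.norm_eq_abs, norm_pow, Real.norm_of_nonneg hx0.le]
        exact mul_le_mul_of_nonneg_right (hC k) (pow_nonneg hx0.le k)
    have h2 := (hsa.hasSum.mul_left x).add
      (Real.hasSum_pow_div_log_of_abs_lt_one (x := x) (by rwa [abs_of_pos hx0]))
    rw [hQ, hA]
    simp only
    rw [← hxd, sub_eq_add_neg]
    refine h2.congr_fun fun k => ?_
    rw [ha]
    ring
  obtain ⟨P, hP⟩ : ∃ P : ℝ → ℝ, P = fun h => ∑' m : ℕ, w m * (m : ℝ) ^ (-(1 + h)) := ⟨_, rfl⟩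
  have hb : ∀ h, 0 < h → Q h ≤ P h ∧ P h ≤ Real.exp h * Q h := by
    intro h hh
    have hPt : Tendsto (fun K => ∑ m ∈ expNums K, w m * (m : ℝ) ^ (-(1 + h))) atTop (𝓝 (P h)) := by
      rw [hP]
      refine ((hs h hh).hasSum.tendsto_sum_nat.comp
        ((tendsto_add_atTop_nat 1).comp hfl)).congr fun K => ?_
      simp only [Function.comp_apply, expNums]
      rw [range_eq_Ico, sum_eq_sum_Ico_succ_bot (Nat.succ_pos _), h0, zero_mul, zero_add]
      rfl
    have hQt := (hQsum h hh).tendsto_sum_nat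
    exact ⟨le_of_tendsto_of_tendsto' hQt hPt fun K => (weight_sandwich hw h1 hh.le K).1,
      le_of_tendsto_of_tendsto' hPt (hQt.const_mul _) fun K => (weight_sandwich hw h1 hh.le K).2⟩
  have hx : Tendsto (fun h : ℝ => Real.exp (-h)) (𝓝[>] 0) (𝓝[<] 1) :=
    tendsto_nhdsWithin_iff.2 ⟨by
      simpa [Function.comp_def] using
        (((Real.continuous_exp.comp continuous_neg).tendsto (0 : ℝ)).mono_left
          nhdsWithin_le_nhds),
      eventually_nhdsWithin_of_forall fun h (hh : 0 < h) => Real.exp_lt_one_iff.2 (by linarith)⟩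
  have hA1 : Tendsto (fun h => A (Real.exp (-h))) (𝓝[>] 0) (𝓝 (M - eulerMascheroniConstant)) := by
    rw [hA]
    exact (Real.tendsto_tsum_powerSeries_nhdsWithin_lt hpart).comp hx
  have hx1 : Tendsto (fun h : ℝ => Real.exp (-h)) (𝓝[>] 0) (𝓝 1) := hx.mono_right nhdsWithin_le_nhds
  have hPQ : Tendsto (fun h => P h - Q h) (𝓝[>] 0) (𝓝 0) := by
    have hlim : Tendsto (fun h : ℝ => Real.exp h * ((1 - Real.exp (-h)) *
        (Real.exp (-h) * A (Real.exp (-h))) -
          (1 - Real.exp (-h)) * log (1 - Real.exp (-h)))) (𝓝[>] 0) (𝓝 0) := by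
      have a1 : Tendsto (fun h : ℝ => 1 - Real.exp (-h)) (𝓝[>] 0) (𝓝 0) := by
        simpa using (tendsto_const_nhds (x := (1 : ℝ))).sub hx1
      have a2 := (Real.continuous_mul_log.tendsto 0).comp a1
      have a3 : Tendsto (fun h : ℝ => Real.exp h) (𝓝[>] 0) (𝓝 1) := by
        simpa using (Real.continuous_exp.tendsto (0 : ℝ)).mono_left nhdsWithin_le_nhds
      simpa using a3.mul ((a1.mul (hx1.mul hA1)).sub a2)
    refine squeeze_zero' (eventually_nhdsWithin_of_forall fun h hh => sub_nonneg.2 (hb h hh).1)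
      (eventually_nhdsWithin_of_forall fun h hh => ?_) hlim
    refine (sub_le_sub_right (hb h hh).2 _).trans (le_of_eq ?_)
    rw [hQ]
    simp only
    rw [Real.exp_neg]
    field_simp
  have hQl : Tendsto (fun h => Q h + log h) (𝓝[>] 0) (𝓝 (M - eulerMascheroniConstant)) := by
    have hr : Tendsto (fun h : ℝ => (1 - Real.exp (-h)) / h) (𝓝[>] 0) (𝓝 1) := by
      have a1 : Tendsto (fun h : ℝ => (1 + h)⁻¹) (𝓝[>] 0) (𝓝 1) := by
        simpa using ((tendsto_const_nhds (x := (1 : ℝ))).add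
          ((tendsto_id (x := 𝓝 (0 : ℝ))).mono_left nhdsWithin_le_nhds)).inv₀ (by norm_num)
      refine tendsto_of_tendsto_of_tendsto_of_le_of_le' a1 tendsto_const_nhds
        (eventually_nhdsWithin_of_forall fun h (hh : 0 < h) => ?_)
        (eventually_nhdsWithin_of_forall fun h (hh : 0 < h) => ?_)
      · rw [le_div_iff₀ hh, Real.exp_neg]
        have := inv_anti₀ (show 0 < 1 + h by linarith)
          (show 1 + h ≤ Real.exp h by linarith [Real.add_one_le_exp h])
        have e : (1 + h)⁻¹ * h = 1 - (1 + h)⁻¹ := by field_simp; ring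
        linarith
      · rw [div_le_one hh]
        linarith [Real.add_one_le_exp (-h)]
    have a3 := (hx1.mul hA1).sub (hr.log one_ne_zero)
    rw [one_mul, Real.log_one, sub_zero] at a3
    refine a3.congr' (eventually_nhdsWithin_of_forall fun h (hh : 0 < h) => ?_)
    rw [hQ]
    simp only
    rw [Real.log_div (by linarith [Real.exp_lt_one_iff.2 (show -h < 0 by linarith)]) hh.ne']
    ring
  have hfin := hPQ.add hQl
  rw [zero_add] at hfin
  refine hfin.congr fun h => ?_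
  rw [hP]
  ring

end FA.IdealMertens

end
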