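import Fermat.Agent.IdealMertens.Places
import Fermat.Agent.IdealMertens.Abelian
import Fermat.Agent.HeckeBS.EulerBound

/-!
# Rosen's theorems of Mertens for number fields

The constant in `∑_{N p ≤ x} 1 / N p = log log x + M + o (1)` is `γ + log res - G` with
`G = ∑ (-log (1 - 1/N p) - 1/N p)`, by the Euler product and the pole of `ζ_K` at `1`.
-/

set_option autoImplicit false
set_option linter.style.haveILetI false

noncomputable section

universe u

open NumberField IsDedekindDomain Module Filter Finset Ideal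
open FA.DedekindPIT (primeLog)
open FA.Hecke (primesLE mem_primesLE)
open FA.MertensThird (logTail logTail_bounds tendsto_loglog_floor_sub)
open scoped Topology

namespace FA.IdealMertens

variable (K : Type u) [Field K] [NumberField K]

/-- `∑ (-log (1 - 1/N p) - 1/N p)`. -/
def placeConst : ℝ := ∑' m, placeTail K 0 m

/-- **The Euler product in logarithms.** -/
theorem log_norm_zeta_eq {h : ℝ} (hh : 0 < h) :
    Real.log ‖dedekindZeta K ((1 + h : ℝ) : ℂ)‖ =
      (∑' m : ℕ, placeNum K m * (m : ℝ) ^ (-(1 + h))) + ∑' m, placeTail K h m := by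
  obtain ⟨f, hf⟩ : ∃ f : ℕ → ℝ, f = fun m : ℕ => -Real.log (1 - (m : ℝ) ^ (-(1 + h))) := ⟨_, rfl⟩
  have hfv : ∀ m : ℕ, placeNum K m * f m =
      placeNum K m * (m : ℝ) ^ (-(1 + h)) + placeTail K h m := fun m => by
    rw [placeTail, logTail, hf]
    ring
  have hf0 : ∀ m : ℕ, 2 ≤ m → 0 ≤ f m := fun m hm => by
    obtain ⟨a1, a2⟩ := rpow_le_half hm hh.le
    rw [hf]
    exact neg_nonneg.2 (Real.log_nonpos (by linarith) (by
      linarith [Real.rpow_nonneg (Nat.cast_nonneg (α := ℝ) m) (-(1 + h))]))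
  have hs : Summable fun m => placeNum K m * f m := by
    simp only [hfv]
    exact (summable_placeNum_rpow K hh).add (summable_placeTail K hh.le)
  have hv := hasSum_places K hf0 hs
  have hre : 1 < ((1 + h : ℝ) : ℂ).re := by rw [Complex.ofReal_re]; linarith
  have hz : 0 < ‖dedekindZeta K ((1 + h : ℝ) : ℂ)‖ :=
    (Real.exp_pos _).trans_le (FA.HeckeBS.norm_dedekindZeta_bounds (K := K) hre).1
  have hlim : Tendsto (fun T : Finset (HeightOneSpectrum (𝓞 K)) =>
      Real.exp (∑ v ∈ T, f (absNorm v.asIdeal))) atTop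
      (𝓝 ‖dedekindZeta K ((1 + h : ℝ) : ℂ)‖) := by
    have h1 := (FA.AbelianZeta.hasProd_primes (F := K) hre).norm
    refine Tendsto.congr (fun T => ?_) h1
    rw [Real.exp_sum]
    refine prod_congr rfl fun v _ => ?_
    obtain ⟨a1, a2⟩ := rpow_le_half (FA.Ext.two_le_absNorm v) hh.le
    simp only [hf]
    rw [← Complex.ofReal_natCast, ← Complex.ofReal_neg,
      ← Complex.ofReal_cpow (Nat.cast_nonneg _), ← Complex.ofReal_one, ← Complex.ofReal_sub,
      ← Complex.ofReal_inv, Complex.norm_real,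
      Real.norm_of_nonneg (inv_nonneg.2 (by linarith)), Real.exp_neg, Real.exp_log (by linarith)]
  have heq := tendsto_nhds_unique hlim ((Real.continuous_exp.tendsto _).comp hv)
  rw [heq, Real.log_exp, tsum_congr hfv,
    (summable_placeNum_rpow K hh).tsum_add (summable_placeTail K hh.le)]

theorem tendsto_log_norm_zeta :
    Tendsto (fun h : ℝ => Real.log ‖dedekindZeta K ((1 + h : ℝ) : ℂ)‖ + Real.log h) (𝓝[>] 0)
      (𝓝 (Real.log (dedekindZeta_residue K))) := by
  have hres := dedekindZeta_residue_pos K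
  have hm : Tendsto (fun h : ℝ => 1 + h) (𝓝[>] 0) (𝓝[>] 1) := tendsto_nhdsWithin_iff.2
    ⟨by simpa using ((tendsto_const_nhds (x := (1 : ℝ))).add
      ((tendsto_id (x := 𝓝 (0 : ℝ))).mono_left nhdsWithin_le_nhds)),
      eventually_nhdsWithin_of_forall fun h (hh : 0 < h) => by
        simp only [Set.mem_Ioi]; linarith⟩
  have h1 := ((tendsto_sub_one_mul_dedekindZeta_nhdsGT K).comp hm).norm
  rw [Complex.norm_real, Real.norm_of_nonneg hres.le] at h1
  refine (h1.log hres.ne').congr' (eventually_nhdsWithin_of_forall fun h (hh : 0 < h) => ?_)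
  have hz : 0 < ‖dedekindZeta K ((1 + h : ℝ) : ℂ)‖ := (Real.exp_pos _).trans_le
    (FA.HeckeBS.norm_dedekindZeta_bounds (K := K)
      (show 1 < ((1 + h : ℝ) : ℂ).re by rw [Complex.ofReal_re]; linarith)).1
  simp only [Function.comp_apply]
  rw [norm_mul, show ((1 + h : ℝ) : ℂ) - 1 = (h : ℂ) by push_cast; ring, Complex.norm_real,
    Real.norm_of_nonneg hh.le, Real.log_mul hh.ne' hz.ne', add_comm]

theorem tendsto_placeTail_sum :
    Tendsto (fun h : ℝ => ∑' m, placeTail K h m) (𝓝[>] 0) (𝓝 (placeConst K)) := by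
  refine tendsto_tsum_of_dominated_convergence
    (((Real.summable_nat_rpow.2 (show (-(3 / 2) : ℝ) < -1 by norm_num))).mul_left
      (4 * (finrank ℚ K / Real.log 2))) (fun m => ?_)
    (eventually_nhdsWithin_of_forall fun h (hh : 0 < h) => norm_placeTail_le K hh.le)
  rcases Nat.lt_or_ge m 2 with hm | hm
  · simp only [placeTail, placeNum_of_lt_two K hm, zero_mul]
    exact tendsto_const_nhds
  refine (ContinuousAt.tendsto ?_).mono_left nhdsWithin_le_nhds
  have hn0 : (m : ℝ) ≠ 0 := Nat.cast_ne_zero.2 (by omega)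
  have hc : ContinuousAt (fun h : ℝ => (m : ℝ) ^ (-(1 + h))) 0 :=
    (Real.continuousAt_const_rpow hn0).comp (by fun_prop)
  have hne : (1 : ℝ) - (m : ℝ) ^ (-(1 + (0 : ℝ))) ≠ 0 := by
    rw [add_zero, Real.rpow_neg_one]
    have : (2 : ℝ) ≤ m := Nat.ofNat_le_cast.2 hm
    exact sub_ne_zero.2 (inv_lt_one_of_one_lt₀ (by linarith)).ne'
  exact continuousAt_const.mul ((((continuousAt_const.sub hc).log hne).neg).sub hc)

theorem primeLog_div (m : ℕ) : primeLog K m / (m * Real.log m) = placeNum K m / m := by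
  rcases Nat.lt_or_ge m 2 with hm | hm
  · simp [primeLog_eq, placeNum_of_lt_two K hm]
  · rw [primeLog_eq, mul_comm (m : ℝ),
      mul_comm (placeNum K m), mul_div_mul_left _ _ (Real.log_pos (Nat.one_lt_cast.2 hm)).ne']

/-- **The constant of Rosen.** -/
theorem tendsto_recip_norms : Tendsto (fun n : ℕ =>
    (∑ v ∈ primesLE K n, (1 : ℝ) / absNorm v.asIdeal) - Real.log (Real.log n)) atTop
    (𝓝 (Real.eulerMascheroniConstant + Real.log (dedekindZeta_residue K) - placeConst K)) := by
  obtain ⟨B, hB⟩ := exists_theta_error K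
  obtain ⟨M, hM⟩ := exists_tendsto_loglog_sum hB
  simp only [primeLog_div] at hM
  have hser := tendsto_weight_series (placeNum_nonneg K) (placeNum_of_lt_two K (by norm_num))
    (placeNum_of_lt_two K (by norm_num)) (fun h hh => summable_placeNum_rpow K hh) hM
  have h5 : Tendsto (fun h : ℝ => Real.log ‖dedekindZeta K ((1 + h : ℝ) : ℂ)‖ + Real.log h)
      (𝓝[>] 0) (𝓝 (M - Real.eulerMascheroniConstant + placeConst K)) :=
    (hser.add (tendsto_placeTail_sum K)).congr'
      (eventually_nhdsWithin_of_forall fun h (hh : 0 < h) => by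
        simp only
        rw [log_norm_zeta_eq K hh]; ring)
  rw [show Real.eulerMascheroniConstant + Real.log (dedekindZeta_residue K) - placeConst K = M by
    linarith [tendsto_nhds_unique (tendsto_log_norm_zeta K) h5]]
  refine hM.congr fun n => ?_
  rw [sum_places_eq K (fun m : ℕ => 1 / (m : ℝ)) n]
  congr 1
  exact sum_congr rfl fun m _ => by ring

theorem hasSum_placeConst : HasSum (fun v : HeightOneSpectrum (𝓞 K) =>
    -Real.log (1 - 1 / (absNorm v.asIdeal : ℝ)) - 1 / (absNorm v.asIdeal : ℝ)) (placeConst K) := by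
  have e : ∀ m : ℕ, (m : ℝ) ^ (-(1 + (0 : ℝ))) = 1 / (m : ℝ) := fun m => by
    rw [add_zero, Real.rpow_neg_one, one_div]
  have h := hasSum_places K (F := fun m : ℕ => logTail ((m : ℝ) ^ (-(1 + (0 : ℝ))))) (fun m hm => by
    obtain ⟨a1, a2⟩ := rpow_le_half hm (le_refl (0 : ℝ))
    exact (logTail_bounds (a1.trans a2)).1) (summable_placeTail K le_rfl)
  simp only [logTail, e] at h
  unfold placeConst placeTail
  simp only [logTail, e]
  exact h

/-- `-∑ log (1 - 1/N p) - log log n → γ + log res`. -/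
theorem tendsto_neg_log_sum : Tendsto (fun n : ℕ =>
    (∑ v ∈ primesLE K n, -Real.log (1 - 1 / (absNorm v.asIdeal : ℝ))) - Real.log (Real.log n)) atTop
    (𝓝 (Real.eulerMascheroniConstant + Real.log (dedekindZeta_residue K))) := by
  have hG := (summable_placeTail K le_rfl).hasSum.tendsto_sum_nat.comp (tendsto_add_atTop_nat 1)
  have h := (tendsto_recip_norms K).add hG
  rw [← placeConst, sub_add_cancel] at h
  refine h.congr fun n => ?_
  simp only [Function.comp_apply]
  rw [sum_places_eq K (fun m : ℕ => 1 / (m : ℝ)) n,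
    sum_places_eq K (fun m : ℕ => -Real.log (1 - 1 / (m : ℝ))) n, range_eq_Ico,
    sum_eq_sum_Ico_succ_bot (Nat.succ_pos _),
    show placeTail K 0 0 = 0 by simp [placeTail, placeNum_of_lt_two K (show 0 < 2 by norm_num)],
    zero_add, show (Ico (0 + 1) (n + 1)) = Icc 1 n from rfl, sub_add_eq_add_sub, ← sum_add_distrib]
  refine congrArg (· - _) (sum_congr rfl fun m _ => ?_)
  rw [placeTail, logTail, add_zero, Real.rpow_neg_one, one_div]
  ring

/-- **Rosen's product.** -/
theorem tendsto_log_mul_prod_places : Tendsto (fun x : ℝ =>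
    Real.log x * ∏ v ∈ primesLE K ⌊x⌋₊, (1 - 1 / (absNorm v.asIdeal : ℝ))) atTop
    (𝓝 (Real.exp (-Real.eulerMascheroniConstant) / dedekindZeta_residue K)) := by
  have h := ((tendsto_neg_log_sum K).comp tendsto_nat_floor_atTop).add tendsto_loglog_floor_sub
  rw [add_zero] at h
  have e : Real.exp (-(Real.eulerMascheroniConstant + Real.log (dedekindZeta_residue K))) =
      Real.exp (-Real.eulerMascheroniConstant) / dedekindZeta_residue K := by
    rw [neg_add, ← sub_eq_add_neg, Real.exp_sub, Real.exp_log (dedekindZeta_residue_pos K)]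
  rw [← e]
  refine ((Real.continuous_exp.tendsto _).comp h.neg).congr' ?_
  filter_upwards [eventually_gt_atTop (1 : ℝ)] with x hx
  simp only [Function.comp_apply]
  have hpos : ∀ v ∈ primesLE K ⌊x⌋₊, (0 : ℝ) < 1 - 1 / (absNorm v.asIdeal : ℝ) := fun v _ => by
    have : (1 : ℝ) < absNorm v.asIdeal := Nat.one_lt_cast.2 (FA.Ext.two_le_absNorm v)
    have := (div_lt_one (by linarith : (0 : ℝ) < absNorm v.asIdeal)).2 this
    linarith
  rw [sum_neg_distrib, ← Real.log_prod fun v hv => (hpos v hv).ne']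
  obtain ⟨P, hP⟩ : ∃ P, P = ∏ v ∈ primesLE K ⌊x⌋₊, (1 - 1 / (absNorm v.asIdeal : ℝ)) := ⟨_, rfl⟩
  have hP0 : 0 < P := hP ▸ prod_pos hpos
  rw [← hP]
  ring_nf
  rw [Real.exp_add, Real.exp_log hP0, Real.exp_log (Real.log_pos hx), mul_comm]

theorem tendsto_log_floor_sub :
    Tendsto (fun x : ℝ => Real.log (⌊x⌋₊ : ℕ) - Real.log x) atTop (𝓝 0) := by
  have h := (tendsto_nat_floor_div_atTop (R := ℝ)).log one_ne_zero
  rw [Real.log_one] at h
  refine h.congr' ?_
  filter_upwards [eventually_ge_atTop (1 : ℝ)] with x hx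
  rw [Real.log_div (Nat.cast_ne_zero.2 (Nat.one_le_iff_ne_zero.1 (Nat.one_le_floor_iff _ |>.2 hx)))
    (by linarith)]

/-- **The sum with `log N p`.** -/
theorem exists_tendsto_log_norms : ∃ L : ℝ, Tendsto (fun x : ℝ =>
    (∑ v ∈ primesLE K ⌊x⌋₊, Real.log (absNorm v.asIdeal) / absNorm v.asIdeal) - Real.log x)
      atTop (𝓝 L) := by
  obtain ⟨B, hB⟩ := exists_theta_error K
  obtain ⟨L, hL⟩ := exists_tendsto_log_sum hB
  have h := (hL.comp tendsto_nat_floor_atTop).add tendsto_log_floor_sub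
  rw [add_zero] at h
  refine ⟨L, h.congr fun x => ?_⟩
  simp only [Function.comp_apply]
  rw [sum_places_eq K (fun m : ℕ => Real.log m / (m : ℝ))]
  simp only [primeLog_eq, mul_div_assoc]
  ring

end FA.IdealMertens

end
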