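import Fermat.Agent.IdealMertens.Summation
import Fermat.Agent.MertensThird.Constant
import Fermat.Agent.DedekindPrimeIdeals.Fixed
import Fermat.Agent.AbelianZeta.Euler

/-!
# The prime ideals by their norms

Sums over the prime ideals as sums over the norms, the bound `O (n log m)` for the primes of norm
`m`, and `θ_K n = n + O (n / log² n)`.
-/

set_option autoImplicit false
set_option linter.style.haveILetI false

noncomputable section

universe u

open NumberField IsDedekindDomain Module Filter Finset Ideal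
open FA.DedekindPIT (primeLog thetaK psiK primesLE_fiber)
open FA.Hecke (primesLE mem_primesLE)
open FA.MertensThird (logTail logTail_bounds)
open scoped Topology

namespace FA.IdealMertens

variable (K : Type u) [Field K] [NumberField K]

/-- The number of primes of norm `m`. -/
def placeNum (m : ℕ) : ℝ := ((primesLE K m).filter fun v => absNorm v.asIdeal = m).card

theorem placeNum_nonneg (m : ℕ) : 0 ≤ placeNum K m := Nat.cast_nonneg _

theorem placeNum_of_lt_two {m : ℕ} (hm : m < 2) : placeNum K m = 0 := by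
  rw [placeNum, Nat.cast_eq_zero, card_eq_zero, filter_eq_empty_iff]
  intro v _ h
  have := FA.Ext.two_le_absNorm v
  omega

theorem primeLog_eq (m : ℕ) : primeLog K m = placeNum K m * Real.log m := by
  rw [primeLog, placeNum, ← nsmul_eq_mul]
  exact sum_eq_card_nsmul fun v hv => by rw [(Finset.mem_filter.1 hv).2]

theorem placeNum_le (m : ℕ) :
    placeNum K m ≤ finrank ℚ K / Real.log 2 * Real.log m := by
  have hl := Real.log_pos one_lt_two
  rcases Nat.lt_or_ge m 2 with hm | hm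
  · rw [placeNum_of_lt_two K hm]
    exact mul_nonneg (by positivity) (Real.log_natCast_nonneg m)
  have h : primeLog K m ≤ finrank ℚ K * Real.log m := by
    refine le_trans ?_ (mul_le_mul_of_nonneg_left ArithmeticFunction.vonMangoldt_le_log
      (Nat.cast_nonneg _))
    refine le_trans ?_ (FA.DedekindPIT.mangoldtK_le K m)
    exact le_trans (le_of_eq (sum_congr rfl fun v _ => (one_mul _).symm))
      (FA.Hecke.sum_le_fiberSum (w := fun _ => (1 : ℝ)) (fun _ => zero_le_one) (fun _ => le_rfl) _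
        fun v hv => (Finset.mem_filter.1 hv).2)
  have hlm : Real.log 2 ≤ Real.log m := Real.log_le_log two_pos (by exact_mod_cast hm)
  rw [primeLog_eq] at h
  rw [div_mul_eq_mul_div, le_div_iff₀ hl]
  exact (mul_le_mul_of_nonneg_left hlm (placeNum_nonneg K m)).trans h

theorem sum_places_eq (F : ℕ → ℝ) (n : ℕ) :
    ∑ v ∈ primesLE K n, F (absNorm v.asIdeal) = ∑ m ∈ Icc 1 n, placeNum K m * F m := by
  rw [← sum_fiberwise_of_maps_to (t := Icc 1 n)
    (g := fun v : HeightOneSpectrum (𝓞 K) => absNorm v.asIdeal)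
    fun v hv => mem_Icc.2 ⟨one_le_two.trans (FA.Ext.two_le_absNorm v), mem_primesLE.1 hv⟩]
  refine sum_congr rfl fun m hm => ?_
  rw [primesLE_fiber K (mem_Icc.1 hm).2, placeNum, ← nsmul_eq_mul]
  exact sum_eq_card_nsmul fun v hv => by rw [(Finset.mem_filter.1 hv).2]

/-- **Over the places as over the norms.** -/
theorem hasSum_places {F : ℕ → ℝ} (hF : ∀ m, 2 ≤ m → 0 ≤ F m)
    (hs : Summable fun m => placeNum K m * F m) :
    HasSum (fun v : HeightOneSpectrum (𝓞 K) => F (absNorm v.asIdeal))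
      (∑' m, placeNum K m * F m) := by
  classical
  have h0 : ∀ m, 0 ≤ placeNum K m * F m := fun m => by
    rcases Nat.lt_or_ge m 2 with hm | hm
    · rw [placeNum_of_lt_two K hm, zero_mul]
    · exact mul_nonneg (placeNum_nonneg K m) (hF m hm)
  have hv0 : ∀ v : HeightOneSpectrum (𝓞 K), 0 ≤ F (absNorm v.asIdeal) := fun v =>
    hF _ (FA.Ext.two_le_absNorm v)
  have hsum : Summable fun v : HeightOneSpectrum (𝓞 K) => F (absNorm v.asIdeal) := by
    refine summable_of_sum_le hv0 (c := ∑' m, placeNum K m * F m) fun T => ?_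
    refine (sum_le_sum_of_subset_of_nonneg (t := primesLE K (T.sup fun v => absNorm v.asIdeal))
      (fun v hv => mem_primesLE.2 (le_sup (f := fun v : HeightOneSpectrum (𝓞 K) =>
        absNorm v.asIdeal) hv)) fun v _ _ => hv0 v).trans ?_
    rw [sum_places_eq]
    exact hs.sum_le_tsum _ fun m _ => h0 m
  have hfib := hsum.hasSum.tsum_fiberwise fun v : HeightOneSpectrum (𝓞 K) => absNorm v.asIdeal
  have e : (fun m => ∑' b : (fun v : HeightOneSpectrum (𝓞 K) => absNorm v.asIdeal) ⁻¹' {m},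
      F (absNorm (b : HeightOneSpectrum (𝓞 K)).asIdeal)) = fun m => placeNum K m * F m := by
    funext m
    obtain ⟨S, hS⟩ : ∃ S, S = (primesLE K m).filter fun v => absNorm v.asIdeal = m := ⟨_, rfl⟩
    have hset : (fun v : HeightOneSpectrum (𝓞 K) => absNorm v.asIdeal) ⁻¹' {m} = ↑S := by
      ext v
      rw [hS]
      simp only [Set.mem_preimage, Set.mem_singleton_iff, Finset.mem_coe, Finset.mem_filter,
        mem_primesLE]
      exact ⟨fun h => ⟨h.le, h⟩, fun h => h.2⟩
    rw [tsum_congr_set_coe (fun v : HeightOneSpectrum (𝓞 K) => F (absNorm v.asIdeal)) hset,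
      S.tsum_subtype' fun v : HeightOneSpectrum (𝓞 K) => F (absNorm v.asIdeal), placeNum, ← hS,
      ← nsmul_eq_mul]
    exact sum_eq_card_nsmul fun v hv => by rw [hS] at hv; rw [(Finset.mem_filter.1 hv).2]
  rw [e] at hfib
  exact (hfib.tsum_eq).symm ▸ hsum.hasSum

theorem summable_placeNum_rpow {h : ℝ} (hh : 0 < h) :
    Summable fun m : ℕ => placeNum K m * (m : ℝ) ^ (-(1 + h)) := by
  obtain ⟨D, hD⟩ : ∃ D, D = (finrank ℚ K : ℝ) / Real.log 2 := ⟨_, rfl⟩
  have hD0 : 0 ≤ D := hD ▸ div_nonneg (Nat.cast_nonneg _) (Real.log_pos one_lt_two).le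
  refine Summable.of_nonneg_of_le (fun m => mul_nonneg (placeNum_nonneg K m) (by positivity))
    (fun m => ?_) ((Real.summable_nat_rpow.2 (show -(1 + h / 2) < -1 by linarith)).mul_left
      (D * (1 / (h / 2))))
  rcases Nat.eq_zero_or_pos m with rfl | hm
  · rw [placeNum_of_lt_two K (by norm_num), zero_mul]
    exact mul_nonneg (by positivity) (Real.rpow_nonneg (Nat.cast_nonneg _) _)
  have hm0 : (0 : ℝ) < m := Nat.cast_pos.2 hm
  refine (mul_le_mul_of_nonneg_right ((placeNum_le K m).trans (mul_le_mul_of_nonneg_left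
    (Real.log_le_rpow_div hm0.le (show 0 < h / 2 by linarith)) (hD ▸ hD0)))
    (by positivity)).trans (le_of_eq ?_)
  rw [← hD, show (-(1 + h / 2)) = h / 2 + -(1 + h) by ring, Real.rpow_add hm0]
  ring

/-- The tail term over the norms. -/
def placeTail (h : ℝ) (m : ℕ) : ℝ := placeNum K m * logTail ((m : ℝ) ^ (-(1 + h)))

theorem rpow_le_half {m : ℕ} (hm : 2 ≤ m) {h : ℝ} (hh : 0 ≤ h) :
    (m : ℝ) ^ (-(1 + h)) ≤ (m : ℝ)⁻¹ ∧ (m : ℝ)⁻¹ ≤ 1 / 2 := by
  have h2 : (2 : ℝ) ≤ m := Nat.ofNat_le_cast.2 hm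
  refine ⟨?_, by rw [one_div]; exact inv_anti₀ two_pos h2⟩
  rw [← Real.rpow_neg_one]
  exact Real.rpow_le_rpow_of_exponent_le (by linarith) (by linarith)

theorem norm_placeTail_le {h : ℝ} (hh : 0 ≤ h) (m : ℕ) :
    ‖placeTail K h m‖ ≤
      4 * (finrank ℚ K / Real.log 2) * (m : ℝ) ^ (-(3 / 2) : ℝ) := by
  have hD : (0 : ℝ) ≤ finrank ℚ K / Real.log 2 :=
    div_nonneg (Nat.cast_nonneg _) (Real.log_pos one_lt_two).le
  rcases Nat.lt_or_ge m 2 with hm | hm
  · rw [placeTail, placeNum_of_lt_two K hm, zero_mul, norm_zero]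
    positivity
  have hm0 : (0 : ℝ) < m := Nat.cast_pos.2 (by omega)
  obtain ⟨a1, a2⟩ := rpow_le_half hm hh
  obtain ⟨b1, b2⟩ := logTail_bounds (a1.trans a2)
  rw [placeTail, Real.norm_of_nonneg (mul_nonneg (placeNum_nonneg K m) b1)]
  refine (mul_le_mul ((placeNum_le K m).trans (mul_le_mul_of_nonneg_left
    (Real.log_le_rpow_div hm0.le (show (0 : ℝ) < 1 / 2 by norm_num)) hD))
    (b2.trans (mul_le_mul_of_nonneg_left (pow_le_pow_left₀ (by positivity) a1 2) zero_le_two))
    b1 (mul_nonneg hD (by positivity))).trans (le_of_eq ?_)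
  rw [show (-(3 / 2) : ℝ) = 1 / 2 + -((2 : ℕ) : ℝ) by norm_num, Real.rpow_add hm0,
    Real.rpow_neg hm0.le, Real.rpow_natCast]
  ring

theorem summable_placeTail {h : ℝ} (hh : 0 ≤ h) : Summable (placeTail K h) :=
  Summable.of_norm_bounded ((Real.summable_nat_rpow.2 (by norm_num)).mul_left _)
    (norm_placeTail_le K hh)

/-- **The error term for `θ_K`.** -/
theorem exists_theta_error : ∃ B : ℝ, ∀ n : ℕ, 2 ≤ n →
    |(∑ m ∈ Icc 1 n, primeLog K m) - n| ≤ B * n / Real.log n ^ 2 := by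
  obtain ⟨c, C, hc, hC, herr⟩ := FA.DedekindPIT.exists_fixed_field_error K
  obtain ⟨d, hd⟩ : ∃ d : ℝ, d = (finrank ℚ K : ℝ) := ⟨_, rfl⟩
  refine ⟨24 * C / c ^ 4 + 432 * d, fun n hn => ?_⟩
  have hn2 : (2 : ℝ) ≤ n := Nat.ofNat_le_cast.2 hn
  have hn0 : (0 : ℝ) < n := by linarith
  obtain ⟨l, hldef⟩ : ∃ l, l = Real.log n := ⟨_, rfl⟩
  have hl : 0 < l := hldef ▸ Real.log_pos (by linarith)
  rw [show ∑ m ∈ Icc 1 n, primeLog K m = thetaK K n by
    rw [FA.DedekindPIT.thetaK_eq_sum, Nat.floor_natCast]]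
  have h1 : |psiK K n - n| ≤ 24 * C / c ^ 4 * n / l ^ 2 := by
    refine (herr n hn2).1.trans ?_
    rw [← hldef]
    have h := Real.pow_div_factorial_le_exp (c * √l) (by positivity) 4
    rw [mul_pow, show √l ^ 4 = (√l ^ 2) ^ 2 by ring, Real.sq_sqrt hl.le,
      show ((Nat.factorial 4 : ℕ) : ℝ) = 24 by norm_num [Nat.factorial]] at h
    rw [Real.exp_neg]
    calc C * n * (Real.exp (c * √l))⁻¹ ≤ C * n * (c ^ 4 * l ^ 2 / 24)⁻¹ :=
          mul_le_mul_of_nonneg_left (inv_anti₀ (by positivity) h) (by positivity)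
      _ = _ := by field_simp
  have h2 : psiK K n - thetaK K n ≤ 432 * d * n / l ^ 2 := by
    refine (FA.DedekindPIT.psiK_sub_thetaK_le K (by linarith)).trans ?_
    rw [← hldef, ← hd, le_div_iff₀ (by positivity)]
    have h3 : l ^ 3 ≤ 216 * √(n : ℝ) := by
      refine (pow_le_pow_left₀ hl.le (hldef ▸ Real.log_le_rpow_div hn0.le
        (show (0 : ℝ) < 1 / 6 by norm_num)) 3).trans (le_of_eq ?_)
      rw [div_pow, ← Real.rpow_natCast ((n : ℝ) ^ (1 / 6 : ℝ)), ← Real.rpow_mul hn0.le,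
        Real.sqrt_eq_rpow]
      norm_num
      ring
    have hd0 : 0 ≤ d := hd ▸ Nat.cast_nonneg _
    calc d * (2 * √(n : ℝ) * l) * l ^ 2 = 2 * d * √(n : ℝ) * l ^ 3 := by ring
      _ ≤ 2 * d * √(n : ℝ) * (216 * √(n : ℝ)) := mul_le_mul_of_nonneg_left h3 (by positivity)
      _ = 432 * d * (√(n : ℝ) * √(n : ℝ)) := by ring
      _ = _ := by rw [Real.mul_self_sqrt hn0.le]
  have h4 := FA.DedekindPIT.thetaK_le_psiK K (n : ℝ)
  rw [← hldef, show (24 * C / c ^ 4 + 432 * d) * n / l ^ 2 =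
    24 * C / c ^ 4 * n / l ^ 2 + 432 * d * n / l ^ 2 by ring]
  rw [abs_le] at h1
  exact abs_le.2 ⟨by linarith, by linarith⟩

end FA.IdealMertens

end
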