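import Fermat.Agent.RichertValues.Mertens
import Mathlib.NumberTheory.Harmonic.EulerMascheroni

/-!
# Mertens' first two sums from an error term in the prime number theorem

If `∑_{m ≤ n} a m = n + O (n / log² n)` then `∑_{m ≤ n} a m / m - log n` and
`∑_{m ≤ n} a m / (m log m) - log log n` converge: two summations by parts.
-/

set_option autoImplicit false

noncomputable section

open Filter Finset
open scoped Topology

namespace FA.IdealMertens

/-- `∑ (a m - 1) / m`. -/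
def excessSum (a : ℕ → ℝ) (n : ℕ) : ℝ := ∑ m ∈ Icc 1 n, (a m - 1) / m

theorem excessSum_succ (a : ℕ → ℝ) (n : ℕ) :
    excessSum a (n + 1) = excessSum a n + (a (n + 1) - 1) / ((n + 1 : ℕ) : ℝ) := by
  rw [excessSum, sum_Icc_succ_top (by omega : 1 ≤ n + 1)]
  rfl

theorem exists_tendsto_excessSum {a : ℕ → ℝ} {B : ℝ}
    (h : ∀ n : ℕ, 2 ≤ n → |(∑ m ∈ Icc 1 n, a m) - n| ≤ B * n / Real.log n ^ 2) :
    ∃ L, Tendsto (excessSum a) atTop (𝓝 L) := by
  obtain ⟨E, hE⟩ : ∃ E : ℕ → ℝ, E = fun n => (∑ m ∈ Icc 1 n, a m) - n := ⟨_, rfl⟩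
  obtain ⟨u, hu⟩ : ∃ u : ℕ → ℝ, u = fun n => excessSum a n - E n / n := ⟨_, rfl⟩
  have hstep : ∀ n, ‖u (n + 2 + 1) - u (n + 2)‖ ≤
      B * ((((n + 3 : ℕ) : ℝ)) * Real.log ((n + 2 : ℕ) : ℝ) ^ 2)⁻¹ := fun n => by
    obtain ⟨k, hk⟩ : ∃ k, k = n + 2 := ⟨_, rfl⟩
    have hk0 : (0 : ℝ) < k := Nat.cast_pos.2 (by omega)
    have e : u (k + 1) - u k = E k / (k * (k + 1)) := by
      rw [hu, hE]
      simp only
      rw [excessSum_succ, sum_Icc_succ_top (by omega : 1 ≤ k + 1)]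
      push_cast
      field_simp
      ring
    rw [show n + 3 = k + 1 by omega, ← hk, e, Real.norm_eq_abs, abs_div,
      abs_of_pos (show (0 : ℝ) < k * (k + 1) by positivity)]
    simp only [hE]
    refine (div_le_div_of_nonneg_right (h k (by omega)) (by positivity)).trans (le_of_eq ?_)
    have hl : Real.log k ≠ 0 := (Real.log_pos (Nat.one_lt_cast.2 (by omega))).ne'
    push_cast
    field_simp
  have hsum : Summable fun n => u (n + 2 + 1) - u (n + 2) :=
    Summable.of_norm_bounded (FA.RichertValues.summable_inv_mul_log_sq.mul_left B) hstep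
  have hlim := hsum.hasSum.tendsto_sum_nat.add_const (u 2)
  have htel : ∀ N, (∑ n ∈ range N, (u (n + 2 + 1) - u (n + 2))) + u 2 = u (N + 2) := fun N => by
    induction N with
    | zero => simp
    | succ N ih => rw [sum_range_succ, add_right_comm, ih]; ring_nf
  simp only [htel] at hlim
  obtain ⟨S, hS⟩ : ∃ S, Tendsto u atTop (𝓝 S) := ⟨_, (tendsto_add_atTop_iff_nat 2).1 hlim⟩
  have h0 : Tendsto (fun n : ℕ => E n / n) atTop (𝓝 0) := by
    refine squeeze_zero_norm' ((eventually_ge_atTop 2).mono fun n hn => ?_)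
      ((tendsto_const_nhds (x := B)).div_atTop ((tendsto_pow_atTop two_ne_zero).comp
        (Real.tendsto_log_atTop.comp tendsto_natCast_atTop_atTop)))
    have hn0 : (0 : ℝ) < n := Nat.cast_pos.2 (by omega)
    rw [Real.norm_eq_abs, abs_div, Nat.abs_cast, div_le_iff₀ hn0]
    simp only [hE]
    refine (h n hn).trans (le_of_eq ?_)
    simp only [Function.comp_apply]
    ring
  refine ⟨S + 0, (hS.add h0).congr fun n => ?_⟩
  rw [hu]
  ring

/-- **The sum with one logarithm.** -/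
theorem exists_tendsto_log_sum {a : ℕ → ℝ} {B : ℝ}
    (h : ∀ n : ℕ, 2 ≤ n → |(∑ m ∈ Icc 1 n, a m) - n| ≤ B * n / Real.log n ^ 2) :
    ∃ L, Tendsto (fun n : ℕ => (∑ m ∈ Icc 1 n, a m / m) - Real.log n) atTop (𝓝 L) := by
  obtain ⟨L, hL⟩ := exists_tendsto_excessSum h
  refine ⟨L + Real.eulerMascheroniConstant,
    (hL.add Real.tendsto_harmonic_sub_log).congr fun n => ?_⟩
  rw [harmonic_eq_sum_Icc]
  push_cast
  simp only [excessSum, sub_div, sum_sub_distrib, one_div]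
  ring

theorem loglog_step {n : ℕ} (hn : 2 ≤ n) :
    1 / (((n : ℝ) + 1) * Real.log ((n : ℝ) + 1)) ≤
        Real.log (Real.log ((n : ℝ) + 1)) - Real.log (Real.log n) ∧
      Real.log (Real.log ((n : ℝ) + 1)) - Real.log (Real.log n) ≤ 1 / ((n : ℝ) * Real.log n) := by
  have hn2 : (2 : ℝ) ≤ n := Nat.ofNat_le_cast.2 hn
  have hl : 0 < Real.log n := Real.log_pos (by linarith)
  have hl' : 0 < Real.log ((n : ℝ) + 1) := Real.log_pos (by linarith)
  rw [← Real.log_div hl'.ne' hl.ne']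
  have hd : 1 / ((n : ℝ) + 1) ≤ Real.log ((n : ℝ) + 1) - Real.log n ∧
      Real.log ((n : ℝ) + 1) - Real.log n ≤ 1 / (n : ℝ) := by
    rw [← Real.log_div (by linarith) (by linarith)]
    refine ⟨le_trans (le_of_eq ?_) (Real.one_sub_inv_le_log_of_pos (by positivity)),
      (Real.log_le_sub_one_of_pos (by positivity)).trans (le_of_eq ?_)⟩
    · field_simp; ring
    · field_simp; ring
  refine ⟨le_trans ?_ (Real.one_sub_inv_le_log_of_pos (div_pos hl' hl)),
    (Real.log_le_sub_one_of_pos (div_pos hl' hl)).trans ?_⟩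
  · rw [inv_div, one_sub_div hl'.ne', ← div_div]
    exact div_le_div_of_nonneg_right hd.1 hl'.le
  · rw [div_sub_one hl.ne', ← div_div]
    exact div_le_div_of_nonneg_right hd.2 hl.le

/-- **The sum with two logarithms.** -/
theorem exists_tendsto_loglog_sum {a : ℕ → ℝ} {B : ℝ}
    (h : ∀ n : ℕ, 2 ≤ n → |(∑ m ∈ Icc 1 n, a m) - n| ≤ B * n / Real.log n ^ 2) :
    ∃ M, Tendsto (fun n : ℕ => (∑ m ∈ Icc 1 n, a m / (m * Real.log m)) - Real.log (Real.log n))
      atTop (𝓝 M) := by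
  obtain ⟨L, hL⟩ := exists_tendsto_excessSum h
  obtain ⟨R, hR⟩ : ∃ R, ∀ n, |excessSum a n| ≤ R := by
    obtain ⟨R, hR⟩ := hL.norm.bddAbove_range
    exact ⟨R, fun n => hR ⟨n, rfl⟩⟩
  have hR0 : 0 ≤ R := (abs_nonneg _).trans (hR 0)
  obtain ⟨φ, hφ⟩ : ∃ φ : ℕ → ℝ, φ = fun n : ℕ => 1 / Real.log (n : ℝ) := ⟨_, rfl⟩
  obtain ⟨ψ, hψ⟩ : ∃ ψ : ℕ → ℝ, ψ = fun n : ℕ => 1 / ((n : ℝ) * Real.log n) := ⟨_, rfl⟩
  obtain ⟨v, hv⟩ : ∃ v : ℕ → ℝ, v = fun n =>
      (∑ m ∈ Icc 1 n, a m / (m * Real.log m)) - Real.log (Real.log n) -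
        excessSum a n * φ n := ⟨_, rfl⟩
  obtain ⟨τ, hτ⟩ : ∃ τ : ℕ → ℝ, τ = fun n => ψ (n + 2) + R * φ (n + 2) := ⟨_, rfl⟩
  have hstep : ∀ n, ‖v (n + 2 + 1) - v (n + 2)‖ ≤ τ n - τ (n + 1) := fun n => by
    obtain ⟨k, hk⟩ : ∃ k, k = n + 2 := ⟨_, rfl⟩
    have hk2 : (2 : ℝ) ≤ k := by exact_mod_cast (show 2 ≤ k by omega)
    have hl : 0 < Real.log k := Real.log_pos (by linarith)
    have hll : Real.log k ≤ Real.log ((k : ℝ) + 1) := Real.log_le_log (by linarith) (by linarith)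
    obtain ⟨s1, s2⟩ := loglog_step (n := k) (by omega)
    have e : v (k + 1) - v k = 1 / (((k : ℝ) + 1) * Real.log ((k : ℝ) + 1)) -
        (Real.log (Real.log ((k : ℝ) + 1)) - Real.log (Real.log k)) +
          excessSum a k * (φ k - φ (k + 1)) := by
      rw [hv]
      simp only
      rw [excessSum_succ, sum_Icc_succ_top (by omega : 1 ≤ k + 1), hφ]
      push_cast
      simp only [div_eq_mul_inv, mul_inv, one_mul]
      ring
    rw [← hk, e, Real.norm_eq_abs, hτ]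
    simp only
    rw [show n + 1 + 2 = k + 1 by omega, ← hk]
    refine (abs_add_le _ _).trans ((add_le_add (b := ψ k - ψ (k + 1))
      (d := R * (φ k - φ (k + 1))) ?_ ?_).trans (le_of_eq (by ring)))
    · rw [hψ, abs_of_nonpos (by linarith)]
      push_cast
      linarith
    · have hd : 0 ≤ φ k - φ (k + 1) := by
        rw [hφ]
        push_cast
        exact sub_nonneg.2 (one_div_le_one_div_of_le hl hll)
      rw [abs_mul, abs_of_nonneg hd]
      exact mul_le_mul_of_nonneg_right (hR k) hd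
  have hτ0 : ∀ n, 0 ≤ τ n := fun n => by
    have : 0 ≤ Real.log ((n + 2 : ℕ) : ℝ) := Real.log_natCast_nonneg _
    rw [hτ, hψ, hφ]
    positivity
  have hsum : Summable fun n => v (n + 2 + 1) - v (n + 2) := by
    refine Summable.of_norm (summable_of_sum_range_le (c := τ 0) (fun n => norm_nonneg _)
      fun N => (sum_le_sum fun n _ => hstep n).trans ?_)
    rw [Finset.sum_range_sub']
    linarith [hτ0 N]
  have hlim := hsum.hasSum.tendsto_sum_nat.add_const (v 2)
  have htel : ∀ N, (∑ n ∈ range N, (v (n + 2 + 1) - v (n + 2))) + v 2 = v (N + 2) := fun N => by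
    induction N with
    | zero => simp
    | succ N ih => rw [sum_range_succ, add_right_comm, ih]; ring_nf
  simp only [htel] at hlim
  obtain ⟨S, hS⟩ : ∃ S, Tendsto v atTop (𝓝 S) := ⟨_, (tendsto_add_atTop_iff_nat 2).1 hlim⟩
  have h0 : Tendsto (fun n : ℕ => excessSum a n * φ n) atTop (𝓝 0) := by
    have hp : Tendsto φ atTop (𝓝 0) :=
      hφ ▸ (Real.tendsto_log_atTop.comp tendsto_natCast_atTop_atTop).const_div_atTop 1
    simpa using hL.mul hp
  refine ⟨S + 0, (hS.add h0).congr fun n => ?_⟩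
  rw [hv]
  ring

end FA.IdealMertens

end
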